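import Mathlib
import Fermat.Prelude.Def_CuspForm_IntegralLattice
import Fermat.Prelude.Def_CuspForm_IntegralStructure
import Fermat.Prelude.Def_CuspForm_HeckeAlgebra
import Fermat.Prelude.Thm_ModularFormClass_qCoeff_heckeT
import Fermat.Prelude.Thm_ModularFormClass_qCoeff_heckeU
import Fermat.Prelude.Thm_CongruenceSubgroup_one_mem_strictPeriods_Gamma0
import Fermat.Prelude.Thm_UpperHalfPlane_eq_of_forall_qCoeff_eq

/-!
# S49 helper: q-coefficients of cusp forms on `Γ₀(N)` and of their Hecke translates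
-/

set_option autoImplicit false

namespace Fermat.Agent.S49

open CongruenceSubgroup ModularFormClass

variable {N : ℕ} {k : ℤ}

theorem qCoeff_add (f g : CuspForm (Gamma0 N) k) (n : ℕ) :
    qCoeff (⇑(f + g)) n = qCoeff (⇑f) n + qCoeff (⇑g) n := by
  unfold qCoeff
  rw [FunLike.coe_add, ModularForm.qExpansion_add one_pos (one_mem_strictPeriods_Gamma0 N) f g,
    map_add]

theorem qCoeff_smul (c : ℂ) (f : CuspForm (Gamma0 N) k) (n : ℕ) :
    qCoeff (⇑(c • f)) n = c * qCoeff (⇑f) n := by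
  unfold qCoeff
  rw [FunLike.coe_smul, ModularForm.qExpansion_smul one_pos (one_mem_strictPeriods_Gamma0 N) c f,
    PowerSeries.coeff_smul, smul_eq_mul]

theorem qCoeff_zsmul (c : ℤ) (f : CuspForm (Gamma0 N) k) (n : ℕ) :
    qCoeff (⇑(c • f)) n = (c : ℂ) * qCoeff (⇑f) n := by
  rw [← qCoeff_smul, Int.cast_smul_eq_zsmul]

theorem qCoeff_sub (f g : CuspForm (Gamma0 N) k) (n : ℕ) :
    qCoeff (⇑(f - g)) n = qCoeff (⇑f) n - qCoeff (⇑g) n := by
  unfold qCoeff
  rw [FunLike.coe_sub, ModularForm.qExpansion_sub one_pos (one_mem_strictPeriods_Gamma0 N) f g,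
    map_sub]

theorem qCoeff_zero_form (n : ℕ) :
    qCoeff (⇑(0 : CuspForm (Gamma0 N) k)) n = 0 := by
  unfold qCoeff
  rw [FunLike.coe_zero, UpperHalfPlane.qExpansion_zero, map_zero]

/-- The constant q-coefficient of a cusp form vanishes. -/
theorem qCoeff_index_zero (f : CuspForm (Gamma0 N) k) : qCoeff (⇑f) 0 = 0 :=
  CuspFormClass.qExpansion_coeff_zero f one_pos (one_mem_strictPeriods_Gamma0 N)

/-- A cusp form all of whose q-coefficients vanish is zero. -/
theorem eq_zero_of_forall_qCoeff_eq_zero (f : CuspForm (Gamma0 N) k)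
    (h : ∀ n : ℕ, qCoeff (⇑f) n = 0) : f = 0 := by
  have hΓ := one_mem_strictPeriods_Gamma0 N
  have hcusp : Fact (IsCusp OnePoint.infty
      (Subgroup.map (Matrix.SpecialLinearGroup.mapGL ℝ) (Gamma0 N))) :=
    ⟨Subgroup.isCusp_of_mem_strictPeriods one_pos hΓ⟩
  have hq : UpperHalfPlane.qExpansion 1 (⇑f) = 0 := by
    ext n
    simpa [qCoeff] using h n
  have h0 : (⇑f : UpperHalfPlane → ℂ) = 0 :=
    (UpperHalfPlane.qExpansion_eq_zero_iff one_pos
      (SlashInvariantFormClass.periodic_comp_ofComplex f hΓ) (ModularFormClass.holo f)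
      (ModularFormClass.bdd_at_infty f)).mp hq
  exact DFunLike.coe_injective h0

theorem qCoeff_heckeTLin {p : ℕ} (hp : p.Prime) (hpN : ¬ p ∣ N)
    (f : CuspForm (Gamma0 N) 2) (n : ℕ) :
    qCoeff (⇑(CuspForm.heckeTLin 2 hp hpN f)) n =
      qCoeff (⇑f) (n * p) + (if p ∣ n then (p : ℂ) * qCoeff (⇑f) (n / p) else 0) := by
  rw [CuspForm.coe_heckeTLin_apply,
    ModularFormClass.qCoeff_heckeT f (one_mem_strictPeriods_Gamma0 N) hp.ne_zero n,
    ModularForm.coeffHeckeT_apply]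
  norm_num

theorem qCoeff_heckeULin [NeZero N] {p : ℕ} (hp : p.Prime) (hpN : p ∣ N)
    (f : CuspForm (Gamma0 N) 2) (n : ℕ) :
    qCoeff (⇑(CuspForm.heckeULin 2 hpN f)) n = qCoeff (⇑f) (n * p) := by
  rw [CuspForm.coe_heckeULin_apply,
    ModularFormClass.qCoeff_heckeU f (one_mem_strictPeriods_Gamma0 N) hp.ne_zero n,
    ModularForm.coeffHeckeU_apply]

theorem exists_int_qCoeff_of_mem_intLattice {f : CuspForm (Gamma0 N) k}
    (hf : f ∈ CuspForm.intLattice N k) (n : ℕ) : ∃ m : ℤ, qCoeff (⇑f) n = (m : ℂ) := by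
  unfold CuspForm.intLattice at hf
  induction hf using Submodule.span_induction with
  | mem x hx => exact hx n
  | zero => exact ⟨0, by rw [qCoeff_zero_form, Int.cast_zero]⟩
  | add x y _ _ hx hy =>
    obtain ⟨a, ha⟩ := hx
    obtain ⟨b, hb⟩ := hy
    exact ⟨a + b, by rw [qCoeff_add, ha, hb, Int.cast_add]⟩
  | smul c x _ hx =>
    obtain ⟨a, ha⟩ := hx
    exact ⟨c * a, by rw [qCoeff_zsmul, ha, Int.cast_mul]⟩

theorem mem_intLattice_of_forall_int (f : CuspForm (Gamma0 N) k)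
    (h : ∀ n : ℕ, ∃ m : ℤ, qCoeff (⇑f) n = (m : ℂ)) : f ∈ CuspForm.intLattice N k :=
  Submodule.subset_span h

/-- A cusp form whose coefficients are all integers divisible by `p` is `p` times a lattice
element. -/
theorem exists_mem_intLattice_zsmul_eq (f : CuspForm (Gamma0 N) k) (p : ℕ) (hp : p ≠ 0)
    (h : ∀ n : ℕ, ∃ m : ℤ, qCoeff (⇑f) n = (p : ℂ) * (m : ℂ)) :
    ∃ g ∈ CuspForm.intLattice N k, f = (p : ℤ) • g := by
  have hp' : (p : ℂ) ≠ 0 := Nat.cast_ne_zero.mpr hp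
  refine ⟨(p : ℂ)⁻¹ • f, mem_intLattice_of_forall_int _ fun n => ?_, ?_⟩
  · obtain ⟨m, hm⟩ := h n
    exact ⟨m, by rw [qCoeff_smul, hm, inv_mul_cancel_left₀ hp']⟩
  · rw [← Int.cast_smul_eq_zsmul ℂ, smul_smul, Int.cast_natCast, mul_inv_cancel₀ hp', one_smul]

end Fermat.Agent.S49
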