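import Mathlib

/-!
# S49 helper: common eigenvectors of commuting families on finite-dimensional invariant subspaces
-/

set_option autoImplicit false

namespace Fermat.Agent.S49

/-- A commuting family `S` of endomorphisms of a vector space over an algebraically closed field,
stabilising a nonzero finite-dimensional subspace `W`, has a common eigenvector in `W`. -/
theorem exists_common_eigenvector_mem
    {K V : Type*} [Field K] [IsAlgClosed K] [AddCommGroup V] [Module K V]
    (S : Set (Module.End K V)) (hcomm : ∀ a ∈ S, ∀ b ∈ S, a * b = b * a)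
    (W : Submodule K V) [FiniteDimensional K W] (hW : W ≠ ⊥)
    (hstab : ∀ a ∈ S, ∀ w ∈ W, a w ∈ W) :
    ∃ w ∈ W, w ≠ 0 ∧ ∀ a ∈ S, ∃ c : K, a w = c • w := by
  induction h : Module.finrank K W using Nat.strong_induction_on generalizing W with
  | _ n ih =>
    by_cases hsc : ∀ a ∈ S, ∃ c : K, ∀ w ∈ W, a w = c • w
    · -- every element of `S` acts on `W` as a scalar: any nonzero vector of `W` works
      obtain ⟨w, hwW, hw0⟩ := Submodule.exists_mem_ne_zero_of_ne_bot hW
      refine ⟨w, hwW, hw0, fun a ha => ?_⟩
      obtain ⟨c, hc⟩ := hsc a ha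
      exact ⟨c, hc w hwW⟩
    · -- some `a ∈ S` is not a scalar on `W`: pass to an eigenspace of `a` inside `W`
      obtain ⟨a, ha, hna⟩ : ∃ a ∈ S, ∀ c : K, ∃ w ∈ W, a w ≠ c • w := by
        by_contra hcon
        refine hsc fun a ha => ?_
        by_contra hcon'
        refine hcon ⟨a, ha, fun c => ?_⟩
        by_contra hcon''
        refine hcon' ⟨c, fun w hw => ?_⟩
        by_contra hne
        exact hcon'' ⟨w, hw, hne⟩
      have hnt : Nontrivial W := (Submodule.nontrivial_iff_ne_bot).2 hW
      obtain ⟨c, hc⟩ := Module.End.exists_eigenvalue (a.restrict (hstab a ha))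
      obtain ⟨v, hv⟩ := hc.exists_hasEigenvector
      have hv1 : a.restrict (hstab a ha) v = c • v := hv.apply_eq_smul
      have hv0 : v ≠ 0 := hv.2
      set W' : Submodule K V := W ⊓ Module.End.eigenspace a c with hW'
      have hvW' : (v : V) ∈ W' := by
        refine ⟨v.2, ?_⟩
        rw [SetLike.mem_coe, Module.End.mem_eigenspace_iff]
        have := congrArg Subtype.val hv1
        simpa using this
      have hW'bot : W' ≠ ⊥ := by
        intro hbot
        rw [hbot] at hvW'
        exact hv0 (Subtype.ext ((Submodule.mem_bot K).1 hvW'))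
      have hlt : W' < W := by
        refine lt_of_le_of_ne inf_le_left ?_
        intro heq
        obtain ⟨w, hwW, hw⟩ := hna c
        apply hw
        have hwW' : w ∈ W' := heq ▸ hwW
        exact Module.End.mem_eigenspace_iff.1 hwW'.2
      have hfin : FiniteDimensional K W' := Submodule.finiteDimensional_of_le hlt.le
      have hstab' : ∀ b ∈ S, ∀ w ∈ W', b w ∈ W' := by
        intro b hb w hw
        refine ⟨hstab b hb w hw.1, ?_⟩
        rw [SetLike.mem_coe, Module.End.mem_eigenspace_iff]
        have h1 : a w = c • w := Module.End.mem_eigenspace_iff.1 hw.2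
        have h2 : a (b w) = b (a w) := by
          have := congrArg (fun f => f w) (hcomm a ha b hb)
          simpa using this
        rw [h2, h1, map_smul]
      obtain ⟨w, hwW', hw0, hw⟩ :=
        ih (Module.finrank K W') (h ▸ Submodule.finrank_lt_finrank_of_lt hlt) W' hW'bot hstab' rfl
      exact ⟨w, hlt.le hwW', hw0, hw⟩

end Fermat.Agent.S49
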