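import Mathlib
import Fermat.Agent.S49.CommonEigen

/-!
# S49 helper: the Deligne–Serre lifting lemma in abstract form
-/

set_option autoImplicit false

namespace Fermat.Agent.S49

/-! ### Commutative algebra ingredients -/

/-- If a Noetherian ring `T` acts faithfully on a finitely generated `M`, every prime `𝔭` contains
a prime `𝔮` which is the annihilator of some element `w` of `M` (a minimal prime is associated). -/
theorem abstractLift_exists_prime_le_eq_ann {T : Type*} [CommRing T] [IsNoetherianRing T]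
    {M : Type*} [AddCommGroup M] [Module T M] [Module.Finite T M]
    (hM : Module.annihilator T M = ⊥) (𝔭 : Ideal T) [𝔭.IsPrime] :
    ∃ (𝔮 : Ideal T) (w : M), 𝔮.IsPrime ∧ 𝔮 ≤ 𝔭 ∧ ∀ x : T, x ∈ 𝔮 ↔ x • w = 0 := by
  obtain ⟨𝔮, h𝔮, h𝔮𝔭⟩ := Ideal.exists_minimalPrimes_le (I := Module.annihilator T M) (J := 𝔭)
    (by rw [hM]; exact bot_le)
  have h1 := Module.associatedPrimes.minimalPrimes_annihilator_subset_associatedPrimes T M h𝔮
  obtain ⟨hprime, w, hw⟩ := isAssociatedPrime_iff.mp h1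
  refine ⟨𝔮, w, hprime, h𝔮𝔭, fun x => ?_⟩
  rw [hw, Submodule.mem_colon_singleton, Submodule.mem_bot]

/-- If `T` is integral over `ℤ` and a ring hom `μ' : T →+* ℂ` kills a prime `𝔮`, then its kernel
is exactly `𝔮` (incomparability, as both primes lie over `0` in `ℤ`). -/
theorem abstractLift_ker_le_of_le_ker {T : Type*} [CommRing T] [Algebra.IsIntegral ℤ T]
    (𝔮 : Ideal T) [𝔮.IsPrime] (μ' : T →+* ℂ) (h : 𝔮 ≤ RingHom.ker μ') :
    RingHom.ker μ' ≤ 𝔮 := by
  intro x hx
  by_contra hx'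
  have h1 := Ideal.comap_lt_comap_of_integral_mem_sdiff (R := ℤ) h ⟨hx, hx'⟩
    (Algebra.IsIntegral.isIntegral x)
  have h2 : Ideal.comap (algebraMap ℤ T) (RingHom.ker μ') = ⊥ := by
    ext n
    simp [RingHom.mem_ker]
  rw [h2] at h1
  exact not_lt_bot h1

/-- Going up along a ring hom into the ring of algebraic integers. -/
theorem abstractLift_exists_maximal_comap_eq {T : Type*} [CommRing T]
    (μ'' : T →+* integralClosure ℤ ℂ) (𝔭 : Ideal T) [𝔭.IsMaximal] (h : RingHom.ker μ'' ≤ 𝔭) :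
    ∃ 𝔪' : Ideal (integralClosure ℤ ℂ), 𝔪'.IsMaximal ∧ 𝔪'.comap μ'' = 𝔭 := by
  let _ : Algebra T (integralClosure ℤ ℂ) := μ''.toAlgebra
  have : Algebra.IsIntegral T (integralClosure ℤ ℂ) := ⟨fun x => by
    have hx : IsIntegral ℤ x := Algebra.IsIntegral.isIntegral x
    exact hx.tower_top⟩
  exact Ideal.exists_ideal_over_maximal_of_isIntegral 𝔭 h

/-! ### The Hecke ring acting on the lattice -/

section AB

variable {H : Type*} [CommRing H] {L : Type*} [AddCommGroup L] [Module.Finite ℤ L]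
  (r : H →+* Module.End ℤ L)

/-- The image of a commutative ring in the endomorphism ring of a finitely generated abelian group
is a finitely generated abelian group. -/
theorem abstractLift_finite_int_quot_ker : Module.Finite ℤ (H ⧸ RingHom.ker r) := by
  have : IsNoetherian ℤ (H ⧸ RingHom.ker r) :=
    isNoetherian_of_injective (RingHom.kerLift r).toAddMonoidHom.toIntLinearMap
      (RingHom.kerLift_injective r)
  infer_instance

/-- The maximal ideal `𝔭` attached to a mod `p` eigenvector `f`, and a prime `𝔮 ≤ 𝔭` which is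
the annihilator of a lattice element `w`. -/
theorem abstractLift_exists_ideals_quot_ker (p : ℕ) (hp : p.Prime) (f : L)
    (hf : ∀ g : L, f ≠ (p : ℤ) • g)
    (hθ : ∀ t : H, ∃ n : ℤ, ∃ g : L, r t f - n • f = (p : ℤ) • g) :
    ∃ (𝔭 𝔮 : Ideal (H ⧸ RingHom.ker r)) (w : L), 𝔭.IsMaximal ∧ 𝔮.IsPrime ∧ 𝔮 ≤ 𝔭 ∧
      (∀ t : H, Ideal.Quotient.mk (RingHom.ker r) t ∈ 𝔭 ↔ ∃ g : L, r t f = (p : ℤ) • g) ∧
      (∀ t : H, Ideal.Quotient.mk (RingHom.ker r) t ∈ 𝔮 ↔ r t w = 0) := by
  have hfin : Module.Finite ℤ (H ⧸ RingHom.ker r) := abstractLift_finite_int_quot_ker r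
  have hnoeth : IsNoetherianRing (H ⧸ RingHom.ker r) := IsNoetherianRing.of_finite ℤ _
  -- the ideal `𝔭`
  let 𝔭 : Ideal (H ⧸ RingHom.ker r) :=
    { carrier := {x | ∃ g : L, RingHom.kerLift r x f = (p : ℤ) • g}
      add_mem' := by
        rintro a b ⟨g₁, h₁⟩ ⟨g₂, h₂⟩
        exact ⟨g₁ + g₂, by rw [map_add, LinearMap.add_apply, h₁, h₂, smul_add]⟩
      zero_mem' := ⟨0, by simp⟩
      smul_mem' := by
        rintro c a ⟨g, h⟩
        exact ⟨RingHom.kerLift r c g, by
          rw [smul_eq_mul, map_mul, Module.End.mul_apply, h, map_smul]⟩ }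
  have hmem𝔭 : ∀ x, x ∈ 𝔭 ↔ ∃ g : L, RingHom.kerLift r x f = (p : ℤ) • g := fun x => Iff.rfl
  have hp𝔭 : ((p : ℤ) : H ⧸ RingHom.ker r) ∈ 𝔭 := by
    rw [hmem𝔭]
    exact ⟨f, by simp⟩
  have hmax : 𝔭.IsMaximal := by
    rw [Ideal.isMaximal_iff]
    constructor
    · rw [hmem𝔭]
      rintro ⟨g, hg⟩
      exact hf g (by simpa using hg)
    · intro J x hJ hx hxJ
      obtain ⟨t, rfl⟩ := Ideal.Quotient.mk_surjective x
      obtain ⟨n, g, hg⟩ := hθ t
      have h1 : Ideal.Quotient.mk (RingHom.ker r) t - (n : H ⧸ RingHom.ker r) ∈ 𝔭 := by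
        rw [hmem𝔭]
        refine ⟨g, ?_⟩
        rw [← hg]
        simp
      have hn : ¬ ((p : ℤ) ∣ n) := by
        rintro ⟨m, rfl⟩
        apply hx
        have h2 : (((p : ℤ) * m : ℤ) : H ⧸ RingHom.ker r) ∈ 𝔭 := by
          rw [Int.cast_mul]
          exact 𝔭.mul_mem_right _ hp𝔭
        simpa using 𝔭.add_mem h1 h2
      have hcop : IsCoprime (p : ℤ) n :=
        (Nat.prime_iff_prime_int.mp hp).irreducible.coprime_iff_not_dvd.mpr hn
      obtain ⟨a, b, hab⟩ := hcop
      have h3 : (n : H ⧸ RingHom.ker r) ∈ J := by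
        have := J.sub_mem hxJ (hJ h1)
        simpa using this
      have h4 : ((a * p + b * n : ℤ) : H ⧸ RingHom.ker r) ∈ J := by
        push_cast
        exact J.add_mem (J.mul_mem_left _ (hJ (by simpa using hp𝔭))) (J.mul_mem_left _ h3)
      rw [hab] at h4
      simpa using h4
  -- the scalar action of the quotient ring on `L`
  let _ : Module (H ⧸ RingHom.ker r) L := Module.compHom L (RingHom.kerLift r)
  have hsmul : ∀ (x : H ⧸ RingHom.ker r) (v : L), x • v = RingHom.kerLift r x v := fun _ _ => rfl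
  have : Module.Finite (H ⧸ RingHom.ker r) L :=
    Module.Finite.of_restrictScalars_finite ℤ (H ⧸ RingHom.ker r) L
  have hann : Module.annihilator (H ⧸ RingHom.ker r) L = ⊥ := by
    rw [eq_bot_iff]
    intro x hx
    rw [Module.mem_annihilator] at hx
    rw [Ideal.mem_bot]
    apply RingHom.kerLift_injective r
    rw [map_zero]
    ext v
    rw [← hsmul, hx, LinearMap.zero_apply]
  have : 𝔭.IsPrime := hmax.isPrime
  obtain ⟨𝔮, w, h𝔮, h𝔮𝔭, h𝔮w⟩ := abstractLift_exists_prime_le_eq_ann hann 𝔭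
  refine ⟨𝔭, 𝔮, w, hmax, h𝔮, h𝔮𝔭, fun t => ?_, fun t => ?_⟩
  · rw [hmem𝔭, RingHom.kerLift_mk]
  · rw [h𝔮w, hsmul, RingHom.kerLift_mk]

end AB

/-! ### Eigenvectors in the complex span of an orbit -/

/-- If the `ℂ`-span of the orbit of `w ≠ 0` under the commutative ring `H` is finite-dimensional,
it contains a common eigenvector `g`; its eigencharacter `μ` vanishes on every `t` which kills
the orbit of `w`. -/
theorem abstractLift_exists_eigenvector_in_orbit_span {V : Type*} [AddCommGroup V] [Module ℂ V]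
    {H : Type*} [CommRing H] (ρ : H →+* Module.End ℂ V) (w : V) (hw : w ≠ 0)
    (hfin : FiniteDimensional ℂ (Submodule.span ℂ (Set.range fun t : H => ρ t w))) :
    ∃ (g : V) (μ : H →+* ℂ), g ≠ 0 ∧ (∀ t, ρ t g = μ t • g) ∧
      ∀ t, (∀ s, ρ t (ρ s w) = 0) → μ t = 0 := by
  set W : Submodule ℂ V := Submodule.span ℂ (Set.range fun t : H => ρ t w) with hWdef
  have hwW : w ∈ W := Submodule.subset_span ⟨1, by simp⟩
  have hW : W ≠ ⊥ := fun h => hw (by simpa [h] using hwW)
  have hstab : ∀ a ∈ Set.range ρ, ∀ v ∈ W, a v ∈ W := by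
    rintro _ ⟨s, rfl⟩ v hv
    have : W ≤ W.comap (ρ s) := by
      rw [hWdef, Submodule.span_le]
      rintro _ ⟨t, rfl⟩
      refine Submodule.subset_span ⟨s * t, ?_⟩
      simp
    exact this hv
  have hcomm : ∀ a ∈ Set.range ρ, ∀ b ∈ Set.range ρ, a * b = b * a := by
    rintro _ ⟨s, rfl⟩ _ ⟨t, rfl⟩
    rw [← map_mul, ← map_mul, mul_comm]
  obtain ⟨g, hgW, hg, heig⟩ := exists_common_eigenvector_mem (Set.range ρ) hcomm W hW hstab
  have heig' : ∀ t : H, ∃ c : ℂ, ρ t g = c • g := fun t => heig (ρ t) ⟨t, rfl⟩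
  choose μ hμ using heig'
  have hinj : Function.Injective fun c : ℂ => c • g := smul_left_injective ℂ hg
  refine ⟨g, { toFun := μ, map_one' := ?_, map_mul' := ?_, map_zero' := ?_, map_add' := ?_ },
    hg, hμ, ?_⟩
  · apply hinj
    simp only
    rw [← hμ, map_one, one_smul, Module.End.one_apply]
  · intro a b
    apply hinj
    simp only
    rw [← hμ, map_mul, Module.End.mul_apply, hμ b, map_smul, hμ a, smul_smul, mul_comm]
  · apply hinj
    simp only
    rw [← hμ, map_zero, zero_smul, LinearMap.zero_apply]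
  · intro a b
    apply hinj
    simp only
    rw [← hμ, map_add, LinearMap.add_apply, hμ a, hμ b, add_smul]
  · intro t ht
    have hker : W ≤ LinearMap.ker (ρ t) := by
      rw [hWdef, Submodule.span_le]
      rintro _ ⟨s, rfl⟩
      exact LinearMap.mem_ker.mpr (ht s)
    have h0 : ρ t g = 0 := LinearMap.mem_ker.mp (hker hgW)
    have h1 : μ t • g = (0 : ℂ) • g := by rw [← hμ, h0, zero_smul]
    exact hinj h1

/-! ### Restriction of the action to the lattice -/

/-- The action of `H` on a stable `ℤ`-lattice `L ⊆ V`, as a ring hom into `Module.End ℤ L`. -/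
def abstractLift_latticeRestrict {V : Type*} [AddCommGroup V] [Module ℂ V] {H : Type*} [CommRing H]
    (ρ : H →+* Module.End ℂ V) (L : Submodule ℤ V) (hLstab : ∀ t : H, ∀ v ∈ L, ρ t v ∈ L) :
    H →+* Module.End ℤ L where
  toFun t := ((ρ t).restrictScalars ℤ).restrict (hLstab t)
  map_one' := by
    ext x
    change ρ 1 (x : V) = (x : V)
    rw [map_one, Module.End.one_apply]
  map_mul' a b := by
    ext x
    change ρ (a * b) (x : V) = ρ a (ρ b (x : V))
    rw [map_mul, Module.End.mul_apply]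
  map_zero' := by
    ext x
    change ρ 0 (x : V) = 0
    rw [map_zero, LinearMap.zero_apply]
  map_add' a b := by
    ext x
    change ρ (a + b) (x : V) = ρ a (x : V) + ρ b (x : V)
    rw [map_add, LinearMap.add_apply]

theorem abstractLift_latticeRestrict_apply {V : Type*} [AddCommGroup V] [Module ℂ V]
    {H : Type*} [CommRing H]
    (ρ : H →+* Module.End ℂ V) (L : Submodule ℤ V) (hLstab : ∀ t : H, ∀ v ∈ L, ρ t v ∈ L)
    (t : H) (x : L) : ((abstractLift_latticeRestrict ρ L hLstab t x : L) : V) = ρ t (x : V) := rfl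

/-- Deligne–Serre lifting lemma.  `H` is a commutative ring acting `ℂ`-linearly on `V` and
preserving a finitely generated `ℤ`-lattice `L ⊆ V`.  If `f ∈ L`, `f ∉ p L`, is an eigenvector
modulo `p L` (every `t` acts on `f` as an integer modulo `p L`), then there is a genuine
eigenvector `g ≠ 0` in `V` with eigencharacter `μ : H →+* ℂ`, and a maximal ideal `𝔪'` of the ring
of algebraic integers containing `p`, such that `μ t ≡ n (mod 𝔪')` whenever
`t f ≡ n f (mod p L)`. -/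
theorem exists_eigenvector_lift
    {V : Type*} [AddCommGroup V] [Module ℂ V]
    {H : Type*} [CommRing H] (ρ : H →+* Module.End ℂ V)
    (L : Submodule ℤ V) (hLfg : L.FG)
    (hLstab : ∀ t : H, ∀ v ∈ L, ρ t v ∈ L)
    (p : ℕ) (hp : p.Prime)
    (f : V) (hfL : f ∈ L) (hf : ∀ g ∈ L, f ≠ (p : ℤ) • g)
    (hθ : ∀ t : H, ∃ n : ℤ, ∃ g ∈ L, ρ t f - n • f = (p : ℤ) • g) :
    ∃ (g : V) (μ : H →+* ℂ), g ≠ 0 ∧ (∀ t, ρ t g = μ t • g) ∧
      ∃ 𝔪' : Ideal (integralClosure ℤ ℂ), 𝔪'.IsMaximal ∧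
        ((p : ℕ) : integralClosure ℤ ℂ) ∈ 𝔪' ∧
        ∀ (t : H) (n : ℤ), (∃ g' ∈ L, ρ t f - n • f = (p : ℤ) • g') →
          ∃ c : integralClosure ℤ ℂ, (c : ℂ) = μ t ∧ c - (n : integralClosure ℤ ℂ) ∈ 𝔪' := by
  set r : H →+* Module.End ℤ L := abstractLift_latticeRestrict ρ L hLstab with hr
  have hLfin : Module.Finite ℤ L := Module.Finite.iff_fg.mpr hLfg
  have hfinT : Module.Finite ℤ (H ⧸ RingHom.ker r) := abstractLift_finite_int_quot_ker r
  have hintT : Algebra.IsIntegral ℤ (H ⧸ RingHom.ker r) := Algebra.IsIntegral.of_finite ℤ _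
  obtain ⟨𝔭, 𝔮, w, hmax, hprime, h𝔮𝔭, h𝔭, h𝔮⟩ := abstractLift_exists_ideals_quot_ker r p hp ⟨f, hfL⟩
    (fun g hg => hf g g.2 (by simpa using congrArg Subtype.val hg))
    (fun t => by
      obtain ⟨n, g, hgL, hg⟩ := hθ t
      exact ⟨n, ⟨g, hgL⟩, Subtype.ext (by simpa [hr, abstractLift_latticeRestrict_apply] using hg)⟩)
  have hw0 : (w : V) ≠ 0 := by
    intro h0
    have hw : w = 0 := Subtype.ext h0
    have h1 : Ideal.Quotient.mk (RingHom.ker r) 1 ∈ 𝔮 := (h𝔮 1).mpr (by rw [hw, map_zero])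
    exact hprime.ne_top ((Ideal.eq_top_iff_one 𝔮).mpr (by simpa using h1))
  -- finite-dimensionality of the span of the orbit of `w`
  have hfinW : FiniteDimensional ℂ (Submodule.span ℂ (Set.range fun t : H => ρ t (w : V))) := by
    obtain ⟨s, hs⟩ := hLfg
    have : FiniteDimensional ℂ (Submodule.span ℂ (s : Set V)) :=
      FiniteDimensional.span_of_finite ℂ s.finite_toSet
    apply Submodule.finiteDimensional_of_le (S₂ := Submodule.span ℂ (s : Set V))
    rw [← Submodule.span_span_of_tower ℤ ℂ (s : Set V), hs]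
    apply Submodule.span_mono
    rintro _ ⟨t, rfl⟩
    exact hLstab t w w.2
  obtain ⟨g, μ, hg, hμ, hμ0⟩ := abstractLift_exists_eigenvector_in_orbit_span ρ (w : V) hw0 hfinW
  -- `μ` descends to the quotient ring
  have hμker : ∀ t ∈ RingHom.ker r, μ t = 0 := by
    intro t ht
    apply hμ0
    intro s
    have h1 : r t ⟨ρ s w, hLstab s w w.2⟩ = 0 := by
      rw [RingHom.mem_ker.mp ht, LinearMap.zero_apply]
    simpa [hr, abstractLift_latticeRestrict_apply] using congrArg Subtype.val h1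
  let μ' : H ⧸ RingHom.ker r →+* ℂ := Ideal.Quotient.lift (RingHom.ker r) μ hμker
  have hμ' : ∀ t, μ' (Ideal.Quotient.mk _ t) = μ t := fun t => Ideal.Quotient.lift_mk _ _ _
  have h𝔮ker : 𝔮 ≤ RingHom.ker μ' := by
    intro x hx
    obtain ⟨t, rfl⟩ := Ideal.Quotient.mk_surjective x
    rw [RingHom.mem_ker, hμ']
    apply hμ0
    intro s
    have h1 : r t w = 0 := (h𝔮 t).mp hx
    have h2 : ρ t (w : V) = 0 := by
      simpa [hr, abstractLift_latticeRestrict_apply] using congrArg Subtype.val h1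
    rw [← Module.End.mul_apply, ← map_mul, mul_comm, map_mul, Module.End.mul_apply, h2, map_zero]
  have hker𝔮 : RingHom.ker μ' ≤ 𝔮 := abstractLift_ker_le_of_le_ker 𝔮 μ' h𝔮ker
  let μ'' : H ⧸ RingHom.ker r →+* integralClosure ℤ ℂ :=
    μ'.codRestrict (integralClosure ℤ ℂ)
      (fun x => map_isIntegral_int μ' (Algebra.IsIntegral.isIntegral x))
  have hμ'' : ∀ x, ((μ'' x : integralClosure ℤ ℂ) : ℂ) = μ' x := fun x => rfl
  have hker'' : RingHom.ker μ'' ≤ 𝔭 := by
    intro x hx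
    apply h𝔮𝔭
    apply hker𝔮
    rw [RingHom.mem_ker] at hx ⊢
    rw [← hμ'', hx]
    rfl
  obtain ⟨𝔪', hmax', hcomap⟩ := abstractLift_exists_maximal_comap_eq μ'' 𝔭 hker''
  refine ⟨g, μ, hg, hμ, 𝔪', hmax', ?_, ?_⟩
  · have h1 : Ideal.Quotient.mk (RingHom.ker r) (p : H) ∈ 𝔭 :=
      (h𝔭 _).mpr ⟨⟨f, hfL⟩, Subtype.ext (by simp [hr])⟩
    rw [← hcomap, Ideal.mem_comap] at h1
    simpa using h1
  · rintro t n ⟨g', hg'L, hg'⟩
    refine ⟨μ'' (Ideal.Quotient.mk _ t), by rw [hμ'', hμ'], ?_⟩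
    have h1 : Ideal.Quotient.mk (RingHom.ker r) (t - (n : H)) ∈ 𝔭 :=
      (h𝔭 _).mpr ⟨⟨g', hg'L⟩,
        Subtype.ext (by simpa [hr, abstractLift_latticeRestrict_apply] using hg')⟩
    rw [← hcomap, Ideal.mem_comap] at h1
    simpa using h1

end Fermat.Agent.S49
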