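import Mathlib
import Fermat.Prelude.Def_CuspForm_IntegralLattice
import Fermat.Prelude.Def_FormalHecke_Eigensystem
import Fermat.Prelude.Def_ModularForm_EisensteinChiNegThree

/-!
# S49 helper: elementary facts on coefficient sequences
-/

set_option autoImplicit false

namespace Fermat.Agent.S49

open EisensteinWeightOne

/-- Coefficients of the integral Eisenstein series `E₁^χ` over `ℤ`. -/
theorem coeffs_aux_coeff_e1Chi3In_int (k : ℕ) :
    PowerSeries.coeff k (e1Chi3In ℤ) = if k = 0 then 1 else 6 * sigmaChi k := by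
  unfold e1Chi3In e1Chi3
  rw [PowerSeries.coeff_map, PowerSeries.coeff_mk]
  rfl

/-- `E₁^χ ≡ 1 (mod 3)`, hence the bridge product is congruent to the sequence itself. -/
theorem three_dvd_bridgeProduct_coeff_sub (a : ℕ → ℤ) (n : ℕ) :
    (3 : ℤ) ∣ (bridgeProduct a).coeff n - a n := by
  have h1 : a n =
      ∑ p ∈ Finset.HasAntidiagonal.antidiagonal n, a p.1 * (if p.2 = 0 then 1 else 0) := by
    rw [Finset.sum_eq_single (n, 0)]
    · simp
    · rintro ⟨i, j⟩ hij hne
      rw [Finset.HasAntidiagonal.mem_antidiagonal] at hij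
      have hj : j ≠ 0 := by
        rintro rfl
        apply hne
        simp only [add_zero] at hij
        rw [hij]
      simp [hj]
    · intro h
      exact absurd (Finset.HasAntidiagonal.mem_antidiagonal.2 (by simp)) h
  have h2 : (bridgeProduct a).coeff n - a n =
      ∑ p ∈ Finset.HasAntidiagonal.antidiagonal n,
        a p.1 * ((if p.2 = 0 then 1 else 6 * sigmaChi p.2) - (if p.2 = 0 then 1 else 0)) := by
    unfold bridgeProduct
    rw [PowerSeries.coeff_mul]
    conv_lhs => rw [h1]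
    rw [← Finset.sum_sub_distrib]
    refine Finset.sum_congr rfl fun p _ => ?_
    rw [PowerSeries.coeff_mk, coeffs_aux_coeff_e1Chi3In_int, mul_sub]
  rw [h2]
  refine Finset.dvd_sum fun p _ => ?_
  by_cases hp : p.2 = 0
  · simp [hp]
  · simp only [hp, if_false, sub_zero]
    exact ⟨a p.1 * (2 * sigmaChi p.2), by ring⟩

/-- `χ₋₃(ℓ) ≡ ℓ (mod 3)`. -/
theorem three_dvd_chiNegThree_sub (ℓ : ℕ) : (3 : ℤ) ∣ chiNegThree ℓ - (ℓ : ℤ) := by
  unfold chiNegThree
  split_ifs <;> omega

/-- Mod-3 eigen-congruence for the weight-2 operator `T_ℓ` (`ℓ ∤ N`). -/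
theorem three_dvd_heckeT_sub {N : ℕ} {a : ℕ → ℤ}
    (heig : FormalHecke.IsEigensystem
      (fun ℓ => if ℓ ∣ N then 0 else ((chiNegThree ℓ : ℤ) : ℤ)) a)
    {af : ℕ → ℤ} (haf : ∀ n, (3 : ℤ) ∣ af n - a n)
    {ℓ : ℕ} (hℓ : ℓ.Prime) (hℓN : ¬ ℓ ∣ N) (n : ℕ) :
    (3 : ℤ) ∣ af (n * ℓ) + (if ℓ ∣ n then (ℓ : ℤ) * af (n / ℓ) else 0) - a ℓ * af n := by
  have h := heig.2 ℓ hℓ n
  simp only [hℓN, if_false] at h
  rw [mul_comm ℓ n] at h
  obtain ⟨k1, hk1⟩ := haf (n * ℓ)
  obtain ⟨k2, hk2⟩ := haf (n / ℓ)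
  obtain ⟨k3, hk3⟩ := haf n
  obtain ⟨k4, hk4⟩ := three_dvd_chiNegThree_sub ℓ
  by_cases hn : ℓ ∣ n
  · simp only [hn, if_true] at h ⊢
    refine ⟨k1 + ℓ * k2 - a ℓ * k3 - k4 * a (n / ℓ), ?_⟩
    linear_combination hk1 + (ℓ : ℤ) * hk2 - a ℓ * hk3 - a (n / ℓ) * hk4 + h
  · simp only [hn, if_false, mul_zero, add_zero] at h ⊢
    refine ⟨k1 - a ℓ * k3, ?_⟩
    linear_combination hk1 - a ℓ * hk3 + h

/-- Mod-3 eigen-congruence for the operator `U_ℓ` (`ℓ ∣ N`). -/
theorem three_dvd_heckeU_sub {N : ℕ} {a : ℕ → ℤ}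
    (heig : FormalHecke.IsEigensystem
      (fun ℓ => if ℓ ∣ N then 0 else ((chiNegThree ℓ : ℤ) : ℤ)) a)
    {af : ℕ → ℤ} (haf : ∀ n, (3 : ℤ) ∣ af n - a n)
    {ℓ : ℕ} (hℓ : ℓ.Prime) (hℓN : ℓ ∣ N) (n : ℕ) :
    (3 : ℤ) ∣ af (n * ℓ) - a ℓ * af n := by
  have h := heig.2 ℓ hℓ n
  simp only [hℓN, if_true, zero_mul, add_zero] at h
  rw [mul_comm ℓ n] at h
  obtain ⟨k1, hk1⟩ := haf (n * ℓ)
  obtain ⟨k3, hk3⟩ := haf n
  refine ⟨k1 - a ℓ * k3, ?_⟩
  linear_combination hk1 - a ℓ * hk3 + h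

/-- A sequence satisfying the Hecke recursions with `b 1 = 0` vanishes at all positive indices. -/
theorem eq_zero_of_hecke_recursion (N : ℕ) (b lam : ℕ → ℂ) (h1 : b 1 = 0)
    (hT : ∀ p : ℕ, p.Prime → ¬ p ∣ N → ∀ n : ℕ,
      b (n * p) + (if p ∣ n then (p : ℂ) * b (n / p) else 0) = lam p * b n)
    (hU : ∀ p : ℕ, p.Prime → p ∣ N → ∀ n : ℕ, b (n * p) = lam p * b n) :
    ∀ n : ℕ, 1 ≤ n → b n = 0 := by
  intro n
  induction n using Nat.strong_induction_on with
  | _ n ih =>
    intro hn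
    rcases Nat.eq_or_lt_of_le hn with hn1 | hn2
    · rw [← hn1]; exact h1
    · obtain ⟨p, hp, hpn⟩ := Nat.exists_prime_and_dvd (show n ≠ 1 by omega)
      obtain ⟨m, rfl⟩ := hpn
      have hp2 : 2 ≤ p := hp.two_le
      have hm1 : 1 ≤ m := by
        rcases Nat.eq_zero_or_pos m with h0 | h0
        · subst h0; simp at hn
        · exact h0
      have hmlt : m < p * m := by nlinarith
      have hbm : b m = 0 := ih m hmlt hm1
      rw [mul_comm p m]
      by_cases hpN : p ∣ N
      · rw [hU p hp hpN m, hbm, mul_zero]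
      · have h := hT p hp hpN m
        rw [hbm, mul_zero] at h
        by_cases hpm : p ∣ m
        · obtain ⟨m', rfl⟩ := hpm
          have hm'1 : 1 ≤ m' := by
            rcases Nat.eq_zero_or_pos m' with h0 | h0
            · subst h0; simp at hm1
            · exact h0
          have hm'lt : m' < p * (p * m') := by nlinarith
          have hdiv : p * m' / p = m' := Nat.mul_div_cancel_left m' hp.pos
          rw [if_pos (dvd_mul_right p m'), hdiv, ih m' hm'lt hm'1, mul_zero, add_zero] at h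
          exact h
        · rw [if_neg hpm, add_zero] at h
          exact h

/-- Multiplicativity part of `multiplicative_of_hecke_recursion`. -/
theorem coeffs_aux_mul_of_hecke_recursion (N : ℕ) (b : ℕ → ℂ) (h1 : b 1 = 1)
    (hT : ∀ p : ℕ, p.Prime → ¬ p ∣ N → ∀ n : ℕ,
      b (n * p) + (if p ∣ n then (p : ℂ) * b (n / p) else 0) = b p * b n)
    (hU : ∀ p : ℕ, p.Prime → p ∣ N → ∀ n : ℕ, b (n * p) = b p * b n) :
    ∀ m n : ℕ, m.Coprime n → b (m * n) = b m * b n := by
  intro m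
  induction m using Nat.strong_induction_on with
  | _ m ih =>
    intro n hmn
    by_cases hm1 : m = 1
    · subst hm1
      rw [one_mul, h1, one_mul]
    obtain ⟨p, hp, hpm⟩ := Nat.exists_prime_and_dvd hm1
    obtain ⟨m', rfl⟩ := hpm
    have hp2 : 2 ≤ p := hp.two_le
    by_cases hm'0 : m' = 0
    · subst hm'0
      rw [mul_zero, Nat.coprime_zero_left] at hmn
      subst hmn
      rw [mul_zero, mul_one, h1, mul_one]
    have hm'pos : 0 < m' := Nat.pos_of_ne_zero hm'0
    have hm'lt : m' < p * m' := by nlinarith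
    have hpn : p.Coprime n := Nat.Coprime.coprime_dvd_left (dvd_mul_right p m') hmn
    have hm'n : m'.Coprime n := Nat.Coprime.coprime_dvd_left (dvd_mul_left m' p) hmn
    have hpndvd : ¬ p ∣ n := (Nat.Prime.coprime_iff_not_dvd hp).1 hpn
    have e1 : p * m' * n = (m' * n) * p := by ring
    have e2 : p * m' = m' * p := mul_comm p m'
    have ih1 : b (m' * n) = b m' * b n := ih m' hm'lt n hm'n
    rw [e1, e2]
    by_cases hpN : p ∣ N
    · rw [hU p hp hpN (m' * n), hU p hp hpN m', ih1, mul_assoc]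
    · have hA := hT p hp hpN (m' * n)
      have hB := hT p hp hpN m'
      by_cases hpm' : p ∣ m'
      · obtain ⟨m'', rfl⟩ := hpm'
        have hm''pos : 0 < m'' := by
          rcases Nat.eq_zero_or_pos m'' with h0 | h0
          · subst h0; simp at hm'0
          · exact h0
        have hm''lt : m'' < p * (p * m'') := by nlinarith
        have hm''n : m''.Coprime n := Nat.Coprime.coprime_dvd_left (dvd_mul_left m'' p) hm'n
        have ih2 : b (m'' * n) = b m'' * b n := ih m'' hm''lt n hm''n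
        have hd1 : p * m'' * n / p = m'' * n := by
          rw [mul_assoc]; exact Nat.mul_div_cancel_left _ hp.pos
        have hd2 : p * m'' / p = m'' := Nat.mul_div_cancel_left _ hp.pos
        rw [if_pos (Dvd.dvd.mul_right (dvd_mul_right p m'') n), hd1, ih1, ih2] at hA
        rw [if_pos (dvd_mul_right p m''), hd2] at hB
        linear_combination hA - b n * hB
      · have hpm'n : ¬ p ∣ m' * n := fun h => (hp.dvd_mul.1 h).elim hpm' hpndvd
        rw [if_neg hpm'n, add_zero, ih1] at hA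
        rw [if_neg hpm', add_zero] at hB
        linear_combination hA - b n * hB

/-- A normalised sequence satisfying the Hecke recursions (with eigenvalues `b p`) is
multiplicative and satisfies the prime-power recursions. -/
theorem multiplicative_of_hecke_recursion (N : ℕ) (b : ℕ → ℂ) (h1 : b 1 = 1)
    (hT : ∀ p : ℕ, p.Prime → ¬ p ∣ N → ∀ n : ℕ,
      b (n * p) + (if p ∣ n then (p : ℂ) * b (n / p) else 0) = b p * b n)
    (hU : ∀ p : ℕ, p.Prime → p ∣ N → ∀ n : ℕ, b (n * p) = b p * b n) :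
    (∀ m n : ℕ, m.Coprime n → b (m * n) = b m * b n) ∧
    (∀ p r : ℕ, p.Prime → ¬ p ∣ N →
      b (p ^ (r + 2)) = b p * b (p ^ (r + 1)) - p * b (p ^ r)) ∧
    (∀ p r : ℕ, p.Prime → p ∣ N → b (p ^ (r + 2)) = b p * b (p ^ (r + 1))) := by
  refine ⟨coeffs_aux_mul_of_hecke_recursion N b h1 hT hU, ?_, ?_⟩
  · intro p r hp hpN
    have h := hT p hp hpN (p ^ (r + 1))
    have hd : p ^ (r + 1) / p = p ^ r := by
      rw [pow_succ]; exact Nat.mul_div_cancel _ hp.pos
    rw [if_pos (dvd_pow_self p (Nat.succ_ne_zero r)), hd, ← pow_succ] at h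
    linear_combination h
  · intro p r hp hpN
    have h := hU p hp hpN (p ^ (r + 1))
    rw [← pow_succ] at h
    exact h

end Fermat.Agent.S49
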